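import Fermat.Agent.TW.C3

/-!
# Inertia at a prime dividing the level exactly, on the twisted representation
-/

set_option autoImplicit false
set_option linter.unusedSectionVars false
set_option linter.style.haveILetI false

open Matrix.SpecialLinearGroup
open scoped MatrixGroups TensorProduct
open IsLocalRing
open Fermat.Agent.KumG Fermat.Agent.GalRep Fermat.Agent.Places Fermat.Agent.Cheb Fermat.Agent.TW
open Fermat.Agent.Cov Fermat.Agent.SSH

namespace Fermat.Agent.E2Y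

noncomputable section

/-- squaring is injective in groups of odd order -/
theorem sq_inj {G : Type*} [CommGroup G] [Fintype G] (hodd : Odd (Fintype.card G)) {a b : G}
    (h : a * a = b * b) : a = b := by
  obtain ⟨k, hk⟩ := hodd
  have h1 : ∀ x : G, x = (x * x) ^ (k + 1) := by
    intro x
    have h2 : x ^ Fintype.card G = 1 := pow_card_eq_one
    rw [hk] at h2
    rw [← pow_two, ← pow_mul, show 2 * (k + 1) = (2 * k + 1) + 1 by ring, pow_succ, h2, one_mul]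
  rw [h1 a, h, ← h1 b]

section grp

variable {q M : ℕ} [hq : Fact q.Prime] [NeZero M] {H : Subgroup (ZMod M)ˣ}
  [hH : Fact ((-1 : (ZMod M)ˣ) ∈ H)]

/-- the distinguished diamond is the inverse square root of `q` -/
theorem mul_inv_mem (D : WData q M H) {d : (ZMod (q * M))ˣ}
    (hd : dd (q * M) (exists_γ0 D).choose⁻¹ = d) (e : (ZMod (q * M))ˣ) (hco : q.Coprime M)
    (he : ZMod.unitsMap (dvd_mul_left M q) e * ZMod.unitOfCoprime q hco ∈ H) :
    e * (d * d)⁻¹ ∈ HM (dvd_mul_left M q) H := by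
  have hγ := (exists_γ0 D).choose_spec.1
  have hγs := (exists_γ0 D).choose_spec.2
  set γ := (exists_γ0 D).choose
  obtain ⟨u, hu, hu2⟩ := D.sq
  -- `d ≡ (q v)⁻¹`
  have h0 := mem_M hγ
  obtain ⟨w, hw, hw'⟩ := (mem_GH_dd (mul_mem h0 (inv_mem (sQ_mem D.h)))).1 hγs
  have h1 : dd M γ⁻¹ * dd M γ = 1 := dd_inv_mul h0
  have h2 : dd M γ = w * (q * D.v : ℤ) := by
    rw [← dd_sQ D.h, ← hw', ← dd_mul (mul_mem h0 (inv_mem (sQ_mem D.h))) (sQ_mem D.h),
      inv_mul_cancel_right]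
  have h3 : dd M γ⁻¹ = ((ZMod.unitsMap (dvd_mul_left M q) d : (ZMod M)ˣ) : ZMod M) := by
    rw [← dd_cast (dvd_mul_left M q), hd]
    rfl
  set d' := ZMod.unitsMap (dvd_mul_left M q) d with hd'
  -- `q v` as a unit
  have h4 : (d' : ZMod M) * (w * (q * D.v : ℤ)) = 1 := by rw [← h3, ← h2, h1]
  have h5 : (d' * d') * (w * w) * (u * ZMod.unitOfCoprime q hco) = 1 := by
    apply Units.ext
    have e1 : (d' : ZMod M) * d' * (w * w) * (q * (D.v : ZMod M) ^ 2 * q) =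
        ((d' : ZMod M) * (w * (q * D.v : ℤ))) ^ 2 := by
      push_cast
      ring
    rw [h4, hu2] at e1
    simp only [Units.val_mul, ZMod.coe_unitOfCoprime, Units.val_one]
    rw [e1, one_pow]
  rw [HM, Subgroup.mem_comap, map_mul, map_inv, map_mul]
  have e2 : ZMod.unitsMap (dvd_mul_left M q) e * (d' * d')⁻¹ =
      (ZMod.unitsMap (dvd_mul_left M q) e * ZMod.unitOfCoprime q hco) * (u * (w * w)) := by
    have e3 : (d' * d')⁻¹ = (w * w) * (u * ZMod.unitOfCoprime q hco) := by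
      rw [inv_eq_iff_mul_eq_one, ← mul_assoc]
      exact h5
    rw [e3]
    simp only [mul_comm, mul_left_comm, mul_assoc]
  rw [← hd', e2]
  exact mul_mem he (mul_mem hu (mul_mem hw hw))

/-- the twist of a Frobenius at `q` is the distinguished diamond -/
theorem twd_frob (D : WData q M H) {d : (ZMod (q * M))ˣ}
    (hd : dd (q * M) (exists_γ0 D).choose⁻¹ = d) (hqM : ¬ q ∣ M)
    (hodd : Odd (Fintype.card (DG (q * M) (HM (dvd_mul_left M q) H))))
    {A : ValuationSubring (AlgebraicClosure ℚ)} (hA : A.LiesOverPrime q) {Φ : GQ}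
    (hΦ : A.IsFrobeniusAt Φ q) :
    twd (q * M) (HM (dvd_mul_left M q) H) Φ = QuotientGroup.mk d := by
  letI : CommGroup (DG (q * M) (HM (dvd_mul_left M q) H)) := QuotientGroup.Quotient.commGroup _
  have hco : q.Coprime M := (Nat.Prime.coprime_iff_not_dvd hq.out).2 hqM
  have h1 : ZMod.unitsMap (dvd_mul_left M q) (cycU (q * M) Φ) = ZMod.unitOfCoprime q hco := by
    apply Units.ext
    rw [ZMod.coe_unitOfCoprime, ← cycU_frobenius hco hA hΦ, coe_cycU,
      ← castHom_cyc (dvd_mul_left M q)]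
    rfl
  have h2 := mul_inv_mem D hd (cycU (q * M) Φ)⁻¹ hco (by
    rw [map_inv, h1, inv_mul_cancel]; exact one_mem _)
  have h3 : (QuotientGroup.mk ((cycU (q * M) Φ)⁻¹ * (d * d)⁻¹) :
      DG (q * M) (HM (dvd_mul_left M q) H)) = 1 := (QuotientGroup.eq_one_iff _).2 h2
  have h4 := twd_mul_mk hodd Φ
  refine sq_inj (G := DG (q * M) (HM (dvd_mul_left M q) H)) hodd ?_
  rw [QuotientGroup.mk_mul, QuotientGroup.mk_inv, QuotientGroup.mk_inv, QuotientGroup.mk_mul] at h3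
  generalize (twd (q * M) (HM (dvd_mul_left M q) H)) Φ = a at *
  generalize (QuotientGroup.mk (cycU (q * M) Φ) : DG (q * M) (HM (dvd_mul_left M q) H)) = x at *
  generalize (QuotientGroup.mk d : DG (q * M) (HM (dvd_mul_left M q) H)) = y at *
  have h5 : y * y = x⁻¹ := (mul_inv_eq_one.1 h3).symm
  have h6 : a * a = x⁻¹ := by
    rw [eq_inv_iff_mul_eq_one, mul_assoc, h4, mul_inv_cancel]
  rw [h5, h6]

/-- the twist of the inertia at `q` is trivial -/
theorem twd_inertia (hqM : ¬ q ∣ M) {A : ValuationSubring (AlgebraicClosure ℚ)}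
    (hA : A.LiesOverPrime q) {σ : GQ} (hσ : σ ∈ A.inertiaSubgroupIn ℚ) :
    twd (q * M) (HM (dvd_mul_left M q) H) σ = 1 := by
  have h1 : ZMod.unitsMap (dvd_mul_left M q) (cycU (q * M) σ) = 1 := by
    rw [← cycU_inertia ((Nat.Prime.coprime_iff_not_dvd hq.out).2 hqM) hA hσ]
    ext
    rw [coe_cycU, ← castHom_cyc (dvd_mul_left M q)]
    rfl
  have h2 : (QuotientGroup.mk (cycU (q * M) σ) : DG (q * M) (HM (dvd_mul_left M q) H)) = 1 := by
    rw [QuotientGroup.eq_one_iff, HM, Subgroup.mem_comap, h1]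
    exact one_mem _
  rw [twd_apply, h2, one_pow]

theorem odd_index (hodd : Odd (Fintype.card (DG (q * M) (HM (dvd_mul_left M q) H)))) :
    Odd H.index := by
  have h1 := odd_index_map hodd
  rwa [HM, Subgroup.map_comap_eq_self_of_surjective
    (ZMod.unitsMap_surjective (dvd_mul_left M q))] at h1

end grp

section gal

variable {O : Type} [CommRing O] [IsLocalRing O] [IsNoetherianRing O]
  [IsAdicComplete (maximalIdeal O) O] {p : ℕ} [hp : Fact p.Prime]
  (hpO : (p : O) ∈ maximalIdeal O) {q M : ℕ} [hq : Fact q.Prime] [NeZero M]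
  {H : Subgroup (ZMod M)ˣ} [hH : Fact ((-1 : (ZMod M)ˣ) ∈ H)] (ι : AlgebraicClosure ℚ →+* ℂ)

theorem rhoT_eq_rhoN (hqM : ¬ q ∣ M) {A : ValuationSubring (AlgebraicClosure ℚ)}
    (hA : A.LiesOverPrime q) {σ : GQ} (hσ : σ ∈ A.inertiaSubgroupIn ℚ) :
    rhoT (O := O) hpO ι (q * M) (HM (dvd_mul_left M q) H) σ =
      rhoN (O := O) hpO ι (q * M) (HM (dvd_mul_left M q) H) σ := by
  rw [rhoT_apply, twd_inertia hqM hA hσ, map_one, one_mul]

/-- inertia acts unipotently: the general form -/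
theorem rhoN_unip (hpq : p ≠ q) (hqM : ¬ q ∣ M) (hM3 : 3 ≤ M) (D : WData q M H)
    {A : ValuationSubring (AlgebraicClosure ℚ)} (hA : A.LiesOverPrime q) {σ τ : GQ}
    (hσ : σ ∈ A.inertiaSubgroupIn ℚ) (hτ : τ ∈ A.inertiaSubgroupIn ℚ) :
    (rhoN (O := O) hpO ι (q * M) (HM (dvd_mul_left M q) H) τ - 1) *
      (rhoN (O := O) hpO ι (q * M) (HM (dvd_mul_left M q) H) σ - 1) = 0 := by
  have hm : ∀ n, ¬ q ∣ p ^ n := fun n h => hpq ((Nat.prime_dvd_prime_iff_eq hq.out hp.out).1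
    (hq.out.dvd_of_dvd_pow h)).symm
  have e1 : (rhoN (O := O) hpO ι (q * M) (HM (dvd_mul_left M q) H) τ ∘ₗ
      rhoN (O := O) hpO ι (q * M) (HM (dvd_mul_left M q) H) σ) -
      rhoN (O := O) hpO ι (q * M) (HM (dvd_mul_left M q) H) τ =
      rhoN (O := O) hpO ι (q * M) (HM (dvd_mul_left M q) H) σ - LinearMap.id := by
    refine Apx.ext' hpO (fun n => ((apx_rhoO ι hpO τ n).comp (apx_rhoO ι hpO σ n)).sub
      (apx_rhoO ι hpO τ n)) (fun n => (apx_rhoO ι hpO σ n).sub Apx.id) fun n ξ => ?_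
    have h1 := SSH.rhoF_unipH hA hqM hM3 D ι hσ hτ (hm n) ξ
    change rhoF ι (p ^ n) τ (rhoF ι (p ^ n) σ ξ) - rhoF ι (p ^ n) τ ξ = rhoF ι (p ^ n) σ ξ - ξ
    rw [← sub_eq_zero, ← h1]
    abel
  rw [sub_mul, mul_sub, mul_one, one_mul, ← sub_eq_zero.2 e1]
  rfl

/-- **Inertia at `q` acts unipotently** -/
theorem rhoT_unip (hpq : p ≠ q) (hqM : ¬ q ∣ M) (hM3 : 3 ≤ M)
    (hodd : Odd (Fintype.card (DG (q * M) (HM (dvd_mul_left M q) H))))
    {A : ValuationSubring (AlgebraicClosure ℚ)} (hA : A.LiesOverPrime q) {σ τ : GQ}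
    (hσ : σ ∈ A.inertiaSubgroupIn ℚ) (hτ : τ ∈ A.inertiaSubgroupIn ℚ) :
    (rhoT (O := O) hpO ι (q * M) (HM (dvd_mul_left M q) H) τ - 1) *
      (rhoT (O := O) hpO ι (q * M) (HM (dvd_mul_left M q) H) σ - 1) = 0 := by
  obtain ⟨D⟩ := SSH.exists_WData_of_odd (q := q) (M := M)
    ((Nat.Prime.coprime_iff_not_dvd hq.out).2 hqM) (odd_index hodd)
  rw [rhoT_eq_rhoN hpO ι hqM hA hσ, rhoT_eq_rhoN hpO ι hqM hA hτ]
  exact rhoN_unip hpO ι hpq hqM hM3 D hA hσ hτ

/-- **(a)**: inertia at `q` acts unipotently -/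
theorem rhoT_unip_sq (hpq : p ≠ q) (hqM : ¬ q ∣ M) (hM3 : 3 ≤ M)
    (hodd : Odd (Fintype.card (DG (q * M) (HM (dvd_mul_left M q) H))))
    {A : ValuationSubring (AlgebraicClosure ℚ)} (hA : A.LiesOverPrime q) {σ : GQ}
    (hσ : σ ∈ A.inertiaSubgroupIn ℚ) :
    (rhoT (O := O) hpO ι (q * M) (HM (dvd_mul_left M q) H) σ - 1) ^ 2 = 0 := by
  rw [sq]
  exact rhoT_unip hpO ι hpq hqM hM3 hodd hA hσ hσ

end gal

end

end Fermat.Agent.E2Y
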