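import Fermat.Agent.E2Y.YHform
import Fermat.Agent.E2Y.Inert
import Fermat.Agent.Sel.E2C
import Fermat.Agent.TL.Surj

/-!
# The input from the geometry at a prime dividing the level exactly once
-/

set_option autoImplicit false
set_option linter.unusedSectionVars false
set_option linter.style.haveILetI false

open Matrix.SpecialLinearGroup
open scoped MatrixGroups TensorProduct
open IsLocalRing
open Fermat.Agent.AL Fermat.Agent.ALCoh Fermat.Agent.KumG Fermat.Agent.GalRep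
  Fermat.Agent.Places Fermat.Agent.Cheb Fermat.Agent.TW Fermat.Agent.SSH Fermat.Agent.E2
  Fermat.Agent.E2K Fermat.Agent.Cov Fermat.Agent.Flat Fermat.Agent.RedMod Fermat.Agent.Sel

namespace Fermat.Agent.E2Y

noncomputable section

local notation "Q̄" => AlgebraicClosure ℚ

attribute [local instance] ThmC.algRK ThmC.isFractionRing_RK
attribute [local instance 10000] fastAlg

section lvl

/-- the level subgroup comes from level `M` -/
theorem exists_HM {q M : ℕ} [NeZero q] [NeZero M] {H : Subgroup (ZMod (q * M))ˣ}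
    (hker : (ZMod.unitsMap (dvd_mul_left M q)).ker ≤ H) :
    ∃ H' : Subgroup (ZMod M)ˣ, H = HM (dvd_mul_left M q) H' := by
  refine ⟨H.map (ZMod.unitsMap (dvd_mul_left M q)), ?_⟩
  rw [HM, Subgroup.comap_map_eq, left_eq_sup]
  exact hker

theorem neg_one_mem_of_HM {q M : ℕ} [NeZero q] [NeZero M] {H' : Subgroup (ZMod M)ˣ}
    (h : (-1 : (ZMod (q * M))ˣ) ∈ HM (dvd_mul_left M q) H') : (-1 : (ZMod M)ˣ) ∈ H' := by
  rw [HM, Subgroup.mem_comap] at h
  have h1 : ZMod.unitsMap (dvd_mul_left M q) (-1) = -1 := by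
    ext
    simp [ZMod.unitsMap]
  rwa [h1] at h

theorem isPGroup_of_HM {p q M : ℕ} [NeZero q] [NeZero M] {H' : Subgroup (ZMod M)ˣ}
    (h : IsPGroup p (DG (q * M) (HM (dvd_mul_left M q) H'))) : IsPGroup p (DG M H') := by
  refine h.of_surjective (QuotientGroup.map (HM (dvd_mul_left M q) H') H'
    (ZMod.unitsMap (dvd_mul_left M q)) le_rfl) ?_
  intro x
  obtain ⟨x, rfl⟩ := QuotientGroup.mk_surjective x
  obtain ⟨y, rfl⟩ := ZMod.unitsMap_surjective (dvd_mul_left M q) x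
  exact ⟨QuotientGroup.mk y, rfl⟩

end lvl

variable {O : Type} [CommRing O] [IsLocalRing O] [IsNoetherianRing O]
  [IsAdicComplete (maximalIdeal O) O] {p : ℕ} [hp : Fact p.Prime]
  (hpO : (p : O) ∈ maximalIdeal O) (ι : AlgebraicClosure ℚ →+* ℂ)
  {q M : ℕ} [hq : Fact q.Prime] [NeZero M]
  {H : Subgroup (ZMod M)ˣ} [hH : Fact ((-1 : (ZMod M)ˣ) ∈ H)] {S : Set ℕ}
  (hNS : ∀ l, l.Prime → l ∣ q * M → l ∈ S) {e : TS O S}
  {A : ValuationSubring (AlgebraicClosure ℚ)}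

/-- the input from the geometry, for a level subgroup coming from `M` -/
theorem e2P_aux (hreg : ∀ x : O, (p : O) * x = 0 → x = 0)
    (hA : A.LiesOverPrime q) (hqM : ¬ q ∣ M)
    {r : ℕ} (hr : r.Prime) (hr12 : r % 12 = 11) (hrM : r ∣ M)
    {Φ : Q̄ ≃ₐ[ℚ] Q̄} (hΦ : A.IsFrobeniusAt Φ q) (hqp : q ≠ p)
    (hp2 : p ≠ 2) (hΔ : IsPGroup p (DG (q * M) (HM (dvd_mul_left M q) H)))
    (hMS : ∀ l, l.Prime → l ∣ M → l ∈ S)
    {θ : TS O S →ₐ[O] ResidueField O}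
    (heH : IsLoc (phiH O (HM (dvd_mul_left M q) H) hNS) θ e)
    (hno : ∃ s : TS O S, phiH O H hMS s = 0 ∧ θ s ≠ 0)
    {l : ℕ} (hl : l.Prime) (hlS : l ∉ S)
    (hθl : θ (MvPolynomial.X ⟨l, hl, hlS⟩) ≠ (l : ResidueField O) + 1) :
    E2P p (psiY (HM (dvd_mul_left M q) H) hNS e) (rhoY hpO ι (HM (dvd_mul_left M q) H) hNS e)
      q A Φ := by
  have hodd := odd_card (H := HM (dvd_mul_left M q) H) hp2 hΔ
  have hM3 : 3 ≤ M := by
    have h1 := Nat.le_of_dvd (Nat.pos_of_ne_zero (NeZero.ne M)) hrM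
    have h2 : r % 12 ≤ r := Nat.mod_le _ _
    omega
  refine ⟨fun σ hσ y => ?_, ?_⟩
  · have h1 := LinearMap.congr_fun (rhoT_unip (O := O) hpO ι hqp.symm hqM hM3 hodd hA hσ hσ)
      (y : XH O (q * M) (HM (dvd_mul_left M q) H))
    rw [Module.End.mul_apply, LinearMap.sub_apply, LinearMap.sub_apply, map_sub,
      Module.End.one_apply, Module.End.one_apply] at h1
    apply Subtype.ext
    rw [← sub_add] at h1
    exact h1
  · obtain ⟨D⟩ := exists_WData_of_odd (q := q) (M := M)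
      ((Nat.Prime.coprime_iff_not_dvd hq.out).2 hqM) (odd_index hodd)
    obtain ⟨d, hd⟩ := exists_unit_dd (inv_mem (exists_γ0 D).choose_spec.1)
    refine ⟨WY hNS e D, WY_WY hNS e D, WY_psiY hNS e D,
      fun σ y => (rhoY_WY hpO ι hNS e D hM3 σ y).symm, fun n y hy => ?_⟩
    have hpk : algebraMap O (ResidueField O) (p : O) = 0 :=
      (IsLocalRing.residue_eq_zero_iff _).2 hpO
    have hqn : ¬ q ∣ p ^ n := fun h => hqp ((Nat.prime_dvd_prime_iff_eq hq.out hp.out).1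
      (hq.out.dvd_of_dvd_pow h))
    exact main_YH hpO ι D hreg hA hqM hM3 hr hr12 hrM hΦ hqp
      (TL.surjSpz hA hqM hqn hM3 D ι) hd
      (twd_frob D hd hqM hodd hA hΦ) (fun σ hσ => twd_inertia hqM hA hσ) hMS hpk heH hno hl hlS
      hθl hy

/-- **The input from the geometry at a prime dividing the level exactly once.** -/
theorem e2P_of {N : ℕ} [NeZero N] (hN : N = q * M) (hMN : M ∣ N) {H : Subgroup (ZMod N)ˣ}
    [hH : Fact ((-1 : (ZMod N)ˣ) ∈ H)] (hker : (ZMod.unitsMap hMN).ker ≤ H)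
    (hNS : ∀ l, l.Prime → l ∣ N → l ∈ S) (hMS : ∀ l, l.Prime → l ∣ M → l ∈ S)
    (hreg : ∀ x : O, (p : O) * x = 0 → x = 0)
    (hA : A.LiesOverPrime q) (hqM : ¬ q ∣ M)
    {r : ℕ} (hr : r.Prime) (hr12 : r % 12 = 11) (hrM : r ∣ M)
    {Φ : Q̄ ≃ₐ[ℚ] Q̄} (hΦ : A.IsFrobeniusAt Φ q) (hqp : q ≠ p)
    (hp2 : p ≠ 2) (hΔ : IsPGroup p (DG N H))
    {θ : TS O S →ₐ[O] ResidueField O} (heH : IsLoc (phiH O H hNS) θ e)
    (hno : ∀ (H' : Subgroup (ZMod M)ˣ) [Fact ((-1 : (ZMod M)ˣ) ∈ H')], IsPGroup p (DG M H') →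
      ∃ s : TS O S, phiH O H' hMS s = 0 ∧ θ s ≠ 0)
    {l : ℕ} (hl : l.Prime) (hlS : l ∉ S)
    (hθl : θ (MvPolynomial.X ⟨l, hl, hlS⟩) ≠ (l : ResidueField O) + 1) :
    E2P p (psiY H hNS e) (rhoY hpO ι H hNS e) q A Φ := by
  subst hN
  obtain ⟨H', rfl⟩ := exists_HM hker
  haveI : Fact ((-1 : (ZMod M)ˣ) ∈ H') := ⟨neg_one_mem_of_HM hH.out⟩
  exact e2P_aux hpO ι hNS hreg hA hqM hr hr12 hrM hΦ hqp hp2 hΔ hMS heH
    (hno H' (isPGroup_of_HM hΔ)) hl hlS hθl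

end

end Fermat.Agent.E2Y
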