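import Fermat.Agent.TW.FreeAbs

/-!
# `p`-bases
-/

set_option autoImplicit false
set_option linter.unusedSectionVars false
set_option linter.style.haveILetI false

open scoped TensorProduct
open Fermat.Agent.TW

namespace Fermat.Agent.E2Y

noncomputable section

variable {O : Type} [CommRing O] {p : ℕ} [hp : Fact p.Prime]

variable (O p) in
/-- a family of elements which is a basis modulo every power of `p` -/
structure PB (κ : Type) (b : κ → O) : Prop where
  span : ∀ (m : ℕ) (x : O), ∃ (n : κ →₀ ℤ) (x' : O),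
    x = (n.sum fun i a => (a : O) * b i) + (p : O) ^ m * x'
  indep : ∀ (m : ℕ) (n : κ →₀ ℤ) (x' : O), (n.sum fun i a => (a : O) * b i) = (p : O) ^ m * x' →
    ∀ i, ((p : ℤ) ^ m) ∣ n i

/-- combinations -/
def comb {κ : Type} (b : κ → O) : (κ →₀ ℤ) →+ O where
  toFun n := n.sum fun i a => (a : O) * b i
  map_zero' := Finsupp.sum_zero_index
  map_add' x y := Finsupp.sum_add_index' (fun i => by simp) (fun i a a' => by push_cast; ring)

theorem comb_apply {κ : Type} (b : κ → O) (n : κ →₀ ℤ) :
    comb b n = n.sum fun i a => (a : O) * b i := rfl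

theorem exists_basis_gen (F Q : Type) [Field F] [AddCommGroup Q] [Module F Q] :
    ∃ (κ : Type) (B : κ → Q), (∀ c : κ →₀ F, (c.sum fun i a => a • B i) = 0 → c = 0) ∧
      ∀ x : Q, ∃ c : κ →₀ F, (c.sum fun i a => a • B i) = x := by
  let B := Module.Basis.ofVectorSpace F Q
  refine ⟨_, fun i => B i, fun c hc => ?_, fun x => ⟨B.repr x, ?_⟩⟩
  · exact (linearIndependent_iff.1 B.linearIndependent) c hc
  · exact B.linearCombination_repr x

theorem exists_basis_mod {Q : Type} [AddCommGroup Q] (hQ : ∀ x : Q, p • x = 0) :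
    ∃ (κ : Type) (B : κ → Q), (∀ x : Q, ∃ n : κ →₀ ℤ, x = n.sum fun i a => a • B i) ∧
      ∀ n : κ →₀ ℤ, (n.sum fun i a => a • B i) = 0 → ∀ i, (p : ℤ) ∣ n i := by
  letI : Module (ZMod p) Q := AddCommGroup.zmodModule hQ
  obtain ⟨κ, B, hB, hB2⟩ := exists_basis_gen (ZMod p) Q
  refine ⟨_, B, fun x => ?_, fun n h i => ?_⟩
  · obtain ⟨c, hc⟩ := hB2 x
    refine ⟨c.mapRange (fun a => ((a.val : ℕ) : ℤ)) (by simp), ?_⟩
    rw [Finsupp.sum_mapRange_index (by simp)]
    rw [← hc, Finsupp.sum, Finsupp.sum]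
    refine Finset.sum_congr rfl fun i _ => ?_
    have h3 : (c i) = (((c i).val : ℕ) : ZMod p) := (ZMod.natCast_zmod_val _).symm
    conv_lhs => rw [h3]
    rw [Nat.cast_smul_eq_nsmul, natCast_zsmul]
  · have h4 := hB (n.mapRange (fun a : ℤ => (a : ZMod p)) (by simp)) (by
      rw [Finsupp.sum_mapRange_index (by simp), ← h]
      refine Finset.sum_congr rfl fun i _ => ?_
      exact Int.cast_smul_eq_zsmul (ZMod p) (n i) (B i))
    have h5 := DFunLike.congr_fun h4 i
    rw [Finsupp.mapRange_apply, Finsupp.zero_apply] at h5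
    exact (ZMod.intCast_zmod_eq_zero_iff_dvd _ _).1 h5

variable (p) in
theorem exists_pb (hreg : ∀ x : O, (p : O) * x = 0 → x = 0) :
    ∃ (κ : Type) (b : κ → O), PB O p κ b := by
  obtain ⟨κ, B, hB1, hB2⟩ := exists_basis_mod (p := p) (Q := O ⧸ Ideal.span {(p : O)}) (by
    intro x
    obtain ⟨y, rfl⟩ := Ideal.Quotient.mk_surjective x
    rw [← map_nsmul, Ideal.Quotient.eq_zero_iff_mem, nsmul_eq_mul]
    exact Ideal.mul_mem_right _ _ (Ideal.mem_span_singleton_self _))
  choose b hb using fun i => Ideal.Quotient.mk_surjective (B i)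
  have hmk : ∀ n : κ →₀ ℤ, Ideal.Quotient.mk (Ideal.span {(p : O)}) (comb b n) =
      n.sum fun i a => a • B i := by
    intro n
    rw [comb_apply, Finsupp.sum, Finsupp.sum, map_sum]
    refine Finset.sum_congr rfl fun i _ => ?_
    rw [map_mul, hb, zsmul_eq_mul, map_intCast]
  refine ⟨κ, b, ?_, ?_⟩
  · have h1 : ∀ x : O, ∃ (n : κ →₀ ℤ) (x' : O), x = comb b n + (p : O) * x' := by
      intro x
      obtain ⟨n, hn⟩ := hB1 (Ideal.Quotient.mk (Ideal.span {(p : O)}) x)
      have h2 : Ideal.Quotient.mk (Ideal.span {(p : O)}) (comb b n) =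
          Ideal.Quotient.mk (Ideal.span {(p : O)}) x := by rw [hmk, ← hn]
      rw [Ideal.Quotient.eq, Ideal.mem_span_singleton] at h2
      obtain ⟨z, hz⟩ := h2
      exact ⟨n, -z, by linear_combination -hz⟩
    intro m
    induction m with
    | zero => intro x; exact ⟨0, x, by simp⟩
    | succ m ih =>
      intro x
      obtain ⟨n, x', hx⟩ := ih x
      obtain ⟨n', x'', hx'⟩ := h1 x'
      refine ⟨n + (p : ℤ) ^ m • n', x'', ?_⟩
      rw [← comb_apply] at hx ⊢
      rw [map_add, map_zsmul, hx, hx', zsmul_eq_mul]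
      push_cast
      ring
  · have h1 : ∀ (n : κ →₀ ℤ) (x' : O), comb b n = (p : O) * x' → ∀ i, (p : ℤ) ∣ n i := by
      intro n x' h i
      refine hB2 n ?_ i
      rw [← hmk, h, Ideal.Quotient.eq_zero_iff_mem]
      exact Ideal.mul_mem_right _ _ (Ideal.mem_span_singleton_self _)
    intro m
    induction m with
    | zero => intro n x' _ i; simp
    | succ m ih =>
      intro n x' h i
      rw [← comb_apply] at h
      have h2 := h1 n ((p : O) ^ m * x') (by rw [h]; ring)
      choose n' hn' using h2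
      obtain ⟨n'', h3⟩ : ∃ n'' : κ →₀ ℤ, n = (p : ℤ) • n'' := by
        refine ⟨Finsupp.onFinset n.support n' ?_, ?_⟩
        · intro i hi
          rw [Finsupp.mem_support_iff, hn' i]
          exact mul_ne_zero (by exact_mod_cast hp.out.ne_zero) hi
        · ext i
          rw [Finsupp.smul_apply, smul_eq_mul, hn' i]
          rfl
      have h4 : comb b n'' = (p : O) ^ m * x' := by
        rw [← sub_eq_zero]
        apply hreg
        rw [mul_sub, sub_eq_zero]
        rw [h3, map_zsmul, zsmul_eq_mul] at h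
        push_cast at h
        rw [h]
        ring
      have h5 := ih n'' x' h4 i
      rw [h3, Finsupp.smul_apply, smul_eq_mul, pow_succ, mul_comm]
      exact mul_dvd_mul_left _ h5

namespace PB

variable {κ : Type} {b : κ → O}

section mod

variable {L : Type} [AddCommGroup L]

variable (L b) in
/-- combinations with coefficients in a lattice -/
def tc : (κ →₀ L) →+ O ⊗[ℤ] L where
  toFun n := n.sum fun i a => b i ⊗ₜ[ℤ] a
  map_zero' := Finsupp.sum_zero_index
  map_add' _ _ := Finsupp.sum_add_index' (fun _ => TensorProduct.tmul_zero _ _)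
    (fun _ _ _ => TensorProduct.tmul_add _ _ _)

theorem tc_apply (n : κ →₀ L) : tc b L n = n.sum fun i a => b i ⊗ₜ[ℤ] a := rfl

/-- expansions -/
theorem expand (hb : PB O p κ b) (m : ℕ) (y : O ⊗[ℤ] L) : ∃ (φ : κ →₀ L) (y' : O ⊗[ℤ] L),
    y = tc b L φ + (p ^ m : O) • y' := by
  induction y using TensorProduct.induction_on with
  | zero => exact ⟨0, 0, by simp⟩
  | add x y hx hy =>
    obtain ⟨φ, x', hx⟩ := hx
    obtain ⟨ψ, y', hy⟩ := hy
    refine ⟨φ + ψ, x' + y', ?_⟩
    rw [hx, hy, map_add]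
    module
  | tmul a x =>
    obtain ⟨n, a', ha⟩ := hb.span m a
    refine ⟨n.mapRange (fun c => c • x) (zero_smul _ _), a' ⊗ₜ x, ?_⟩
    rw [tc_apply, Finsupp.sum_mapRange_index (fun i => TensorProduct.tmul_zero _ _), ha,
      TensorProduct.add_tmul, TensorProduct.smul_tmul', smul_eq_mul, Finsupp.sum, Finsupp.sum,
      TensorProduct.sum_tmul]
    congr 1
    refine Finset.sum_congr rfl fun i _ => ?_
    rw [TensorProduct.tmul_smul, ← zsmul_eq_mul, ← TensorProduct.smul_tmul']

/-- independence -/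
theorem dvd_of [Module.Free ℤ L] [Module.Finite ℤ L] (hb : PB O p κ b) {m : ℕ} {φ : κ →₀ L}
    {y' : O ⊗[ℤ] L} (h : tc b L φ = (p ^ m : O) • y') (i : κ) : ∃ ψ : L, φ i = (p ^ m : ℕ) • ψ := by
  let e := Module.Free.chooseBasis ℤ L
  have key : ∀ k, ((p : ℤ) ^ m) ∣ e.repr (φ i) k := by
    intro k
    have h1 := congrArg (TensorProduct.AlgebraTensorModule.rid ℤ O O)
      (congrArg ((e.coord k).baseChange O) h)
    have h2 : TensorProduct.AlgebraTensorModule.rid ℤ O O ((e.coord k).baseChange O (tc b L φ)) =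
        comb b (φ.mapRange (e.coord k) (map_zero _)) := by
      rw [tc_apply, Finsupp.sum, map_sum, map_sum, comb_apply,
        Finsupp.sum_mapRange_index (fun _ => by simp), Finsupp.sum]
      refine Finset.sum_congr rfl fun i _ => ?_
      rw [LinearMap.baseChange_tmul, TensorProduct.AlgebraTensorModule.rid_tmul, zsmul_eq_mul]
    rw [h2, map_smul, map_smul, smul_eq_mul] at h1
    exact hb.indep m _ _ h1 i
  choose c hc using key
  refine ⟨e.repr.symm (Finsupp.equivFunOnFinite.symm c), ?_⟩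
  apply e.repr.injective
  rw [map_nsmul, LinearEquiv.apply_symm_apply]
  ext k
  rw [Finsupp.smul_apply, Finsupp.equivFunOnFinite_symm_apply_apply, hc k, nsmul_eq_mul]
  push_cast
  rfl

end mod

end PB

end

end Fermat.Agent.E2Y
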