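import Fermat.Agent.E2Y.PBasis

/-!
# Integral Hecke polynomials
-/

set_option autoImplicit false
set_option linter.unusedSectionVars false
set_option linter.style.haveILetI false

open scoped TensorProduct
open Fermat.Agent.TW

namespace Fermat.Agent.E2Y

noncomputable section

variable {O : Type} [CommRing O] {p : ℕ} [hp : Fact p.Prime]

namespace PB

variable {κ : Type} {b : κ → O}

section poly

variable {I : Type}

variable (b I) in
/-- combinations with polynomial coefficients -/
def pc : (κ →₀ MvPolynomial I ℤ) →+ MvPolynomial I O where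
  toFun t := t.sum fun i a => MvPolynomial.C (b i) * MvPolynomial.map (Int.castRingHom O) a
  map_zero' := Finsupp.sum_zero_index
  map_add' _ _ := Finsupp.sum_add_index' (fun _ => by simp) (fun _ _ _ => by simp [mul_add])

theorem pc_apply (t : κ →₀ MvPolynomial I ℤ) :
    pc b I t = t.sum fun i a => MvPolynomial.C (b i) * MvPolynomial.map (Int.castRingHom O) a := rfl

/-- expansions of polynomials -/
theorem expand_poly (hb : PB O p κ b) (m : ℕ) (s : MvPolynomial I O) :
    ∃ (t : κ →₀ MvPolynomial I ℤ) (s' : MvPolynomial I O),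
      s = pc b I t + MvPolynomial.C ((p : O) ^ m) * s' := by
  induction s using MvPolynomial.induction_on with
  | C a =>
    obtain ⟨n, a', ha⟩ := hb.span m a
    refine ⟨n.mapRange (fun c => MvPolynomial.C c) (map_zero _), MvPolynomial.C a', ?_⟩
    rw [pc_apply, Finsupp.sum_mapRange_index (fun _ => by simp), ← map_mul]
    conv_lhs => rw [ha]
    rw [map_add, Finsupp.sum, Finsupp.sum, map_sum]
    congr 1
    refine Finset.sum_congr rfl fun i _ => ?_
    rw [MvPolynomial.map_C, ← map_mul, mul_comm]
    rfl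
  | add x y hx hy =>
    obtain ⟨t, x', hx⟩ := hx
    obtain ⟨u, y', hy⟩ := hy
    refine ⟨t + u, x' + y', ?_⟩
    conv_lhs => rw [hx, hy]
    rw [map_add]
    ring
  | mul_X x i hx =>
    obtain ⟨t, x', hx⟩ := hx
    refine ⟨t.mapRange (fun c => c * MvPolynomial.X i) (zero_mul _), x' * MvPolynomial.X i, ?_⟩
    conv_lhs => rw [hx]
    rw [pc_apply, pc_apply, Finsupp.sum_mapRange_index (fun _ => by simp), add_mul, Finsupp.sum,
      Finsupp.sum, Finset.sum_mul]
    congr 1
    · refine Finset.sum_congr rfl fun j _ => ?_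
      rw [map_mul, MvPolynomial.map_X, mul_assoc]
    · ring

variable {L : Type} [AddCommGroup L] (f : I → Module.End ℤ L)
  (hf : ∀ i j, Commute (f i) (f j)) {F : I → Module.End O (O ⊗[ℤ] L)}
  (hF : ∀ i j, Commute (F i) (F j)) (hFf : ∀ i, F i = (f i).baseChange O)

include hFf in
theorem evC_map (t : MvPolynomial I ℤ) :
    evC (R := O) F hF (MvPolynomial.map (Int.castRingHom O) t) =
      (evC (R := ℤ) f hf t).baseChange O := by
  induction t using MvPolynomial.induction_on with
  | C a =>
    rw [MvPolynomial.map_C, evC_C, evC_C]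
    refine LinearMap.ext fun x => ?_
    rw [Module.algebraMap_end_apply]
    induction x using TensorProduct.induction_on with
    | zero => rw [smul_zero, map_zero]
    | add x y hx hy => rw [smul_add, map_add, hx, hy]
    | tmul c x =>
      rw [LinearMap.baseChange_tmul, Module.algebraMap_end_apply, TensorProduct.tmul_smul,
        TensorProduct.smul_tmul', eq_intCast, Int.cast_smul_eq_zsmul, TensorProduct.smul_tmul']
  | add x y hx hy => rw [map_add, map_add, map_add, hx, hy, LinearMap.baseChange_add]
  | mul_X x i hx =>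
    rw [map_mul, map_mul, map_mul, hx, MvPolynomial.map_X, evC_X, evC_X, hFf]
    exact (LinearMap.baseChange_comp _ _).symm

include hFf in
/-- from annihilating polynomials over `O` to integral polynomials annihilating modulo `p ^ m` -/
theorem exists_int [Module.Free ℤ L] [Module.Finite ℤ L] (hb : PB O p κ b) {k : Type}
    [CommRing k] [Algebra O k] (θ : MvPolynomial I O →ₐ[O] k) (hpk : algebraMap O k (p : O) = 0)
    {s : MvPolynomial I O} (hs : evC (R := O) F hF s = 0) (hθ : θ s ≠ 0) (m : ℕ) :
    ∃ t : MvPolynomial I ℤ, θ (MvPolynomial.map (Int.castRingHom O) t) ≠ 0 ∧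
      ∀ φ : L, ∃ ψ : L, evC (R := ℤ) f hf t φ = (p ^ m : ℕ) • ψ := by
  obtain ⟨t, s', h⟩ := hb.expand_poly (m + 1) s
  have h1 : ∃ i, θ (MvPolynomial.map (Int.castRingHom O) (t i)) ≠ 0 := by
    by_contra hcon
    push Not at hcon
    apply hθ
    have e1 : ∀ c : O, θ (MvPolynomial.C c) = algebraMap O k c := fun c => θ.commutes c
    rw [h, map_add, pc_apply, Finsupp.sum, map_sum, map_mul, e1, map_pow, hpk,
      zero_pow (Nat.succ_ne_zero m), zero_mul, add_zero]
    refine Finset.sum_eq_zero fun i _ => ?_
    rw [map_mul, hcon i, mul_zero]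
  obtain ⟨i, hi⟩ := h1
  refine ⟨t i, hi, fun φ => ?_⟩
  have h2 : tc b L (t.mapRange (fun a => evC (R := ℤ) f hf a φ) (by simp)) =
      (p ^ (m + 1) : O) • (- evC (R := O) F hF s' ((1 : O) ⊗ₜ[ℤ] φ)) := by
    have h3 := LinearMap.congr_fun hs ((1 : O) ⊗ₜ[ℤ] φ)
    rw [h, map_add, map_mul, evC_C, LinearMap.add_apply, Module.End.mul_apply,
      Module.algebraMap_end_apply, LinearMap.zero_apply, pc_apply, Finsupp.sum, map_sum,
      LinearMap.sum_apply] at h3
    rw [smul_neg, ← sub_eq_zero, sub_neg_eq_add, ← h3, tc_apply,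
      Finsupp.sum_mapRange_index (fun _ => TensorProduct.tmul_zero _ _), Finsupp.sum]
    congr 1
    refine Finset.sum_congr rfl fun j _ => ?_
    rw [map_mul, evC_C, Module.End.mul_apply, Module.algebraMap_end_apply,
      evC_map f hf hF hFf, LinearMap.baseChange_tmul, TensorProduct.smul_tmul', smul_eq_mul,
      mul_one]
  obtain ⟨ψ, hψ⟩ := hb.dvd_of h2 i
  rw [Finsupp.mapRange_apply] at hψ
  exact ⟨p • ψ, by rw [hψ, smul_smul, pow_succ]⟩

end poly

end PB

end

end Fermat.Agent.E2Y
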