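import Fermat.Agent.E2Y.Poly
import Fermat.Agent.E2.Final
import Fermat.Agent.TW.HL2

/-!
# Frobenius on the inertia invariants modulo `p ^ n` of the lattice of level `Γ₀(q) ∩ Γ_H(M)`
-/

set_option autoImplicit false
set_option linter.unusedSectionVars false
set_option linter.style.haveILetI false

open Matrix.SpecialLinearGroup
open scoped MatrixGroups TensorProduct
open IsLocalRing
open Fermat.Agent.AL Fermat.Agent.ALCoh Fermat.Agent.KumG Fermat.Agent.GalRep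
  Fermat.Agent.Places Fermat.Agent.Cheb Fermat.Agent.TW Fermat.Agent.SSH Fermat.Agent.E2
  Fermat.Agent.E2K Fermat.Agent.Cov Fermat.Agent.Flat Fermat.Agent.RedMod

namespace Fermat.Agent.E2Y

noncomputable section

section tc

variable {O : Type} [CommRing O] {κ : Type} {b : κ → O}
  {Γ Γ' : Subgroup SL(2, ℤ)} [LvlG Γ] [LvlG Γ'] {m : ℕ} [NeZero m]

theorem tc_eq_sum {L : Type} [AddCommGroup L] {φ : κ →₀ L} {s : Finset κ} (hs : φ.support ⊆ s) :
    PB.tc b L φ = ∑ i ∈ s, b i ⊗ₜ[ℤ] φ i := by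
  rw [PB.tc_apply]
  exact Finsupp.sum_of_support_subset _ hs _ fun i _ => TensorProduct.tmul_zero _ _

theorem apx_tc {F : O ⊗[ℤ] LZ Γ →ₗ[O] O ⊗[ℤ] LZ Γ'} {f : XL Γ m → XL Γ' m} (h : Apx m F f)
    (φ : κ →₀ LZ Γ) (χ : κ →₀ LZ Γ') (hχ : ∀ i, f (mkX (φ i)) = mkX (χ i)) :
    ∃ z, F (PB.tc b _ φ) = PB.tc b _ χ + (m : O) • z := by
  classical
  choose z hz using fun i => h (φ i) (χ i) (hχ i)
  refine ⟨∑ i ∈ φ.support ∪ χ.support, b i • z i, ?_⟩
  rw [tc_eq_sum (s := φ.support ∪ χ.support) Finset.subset_union_left,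
    tc_eq_sum (s := φ.support ∪ χ.support) Finset.subset_union_right, map_sum, Finset.smul_sum,
    ← Finset.sum_add_distrib]
  refine Finset.sum_congr rfl fun i _ => ?_
  have h1 : ∀ (x : LZ Γ), (b i ⊗ₜ[ℤ] x : O ⊗[ℤ] LZ Γ) = b i • ((1 : O) ⊗ₜ[ℤ] x) := fun x => by
    rw [TensorProduct.smul_tmul', smul_eq_mul, mul_one]
  have h2 : ∀ (x : LZ Γ'), (b i ⊗ₜ[ℤ] x : O ⊗[ℤ] LZ Γ') = b i • ((1 : O) ⊗ₜ[ℤ] x) := fun x => by
    rw [TensorProduct.smul_tmul', smul_eq_mul, mul_one]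
  rw [h1, h2, map_smul, hz i, smul_add, smul_comm]

end tc

section main

variable {O : Type} [CommRing O] [IsLocalRing O] [IsNoetherianRing O]
  [IsAdicComplete (maximalIdeal O) O] {p : ℕ} [hp : Fact p.Prime]
  (hpO : (p : O) ∈ maximalIdeal O) (ι : AlgebraicClosure ℚ →+* ℂ)

/-- the coefficients of an inertia invariant vector are inertia invariant -/
theorem fix_coef {N : ℕ} [NeZero N] {H : Subgroup (ZMod N)ˣ} [hH : Fact ((-1 : (ZMod N)ˣ) ∈ H)]
    {κ : Type} {b : κ → O} (hb : PB O p κ b) {n : ℕ} {φ : κ →₀ LZ (GH N H)} {y₁ : XH O N H}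
    {σ : GQ} (h : ∃ y', rhoN hpO ι N H σ (PB.tc b _ φ + (p ^ n : O) • y₁) -
      (PB.tc b _ φ + (p ^ n : O) • y₁) = (p ^ n : O) • y') (i : κ) :
    rhoF ι (p ^ n) σ (mkX (φ i)) = mkX (φ i) := by
  classical
  haveI : (GH N H).FiniteIndex := inferInstance
  obtain ⟨y', hy'⟩ := h
  have hex : ∀ x : LZ (GH N H), ∃ x' : LZ (GH N H), (x = 0 → x' = 0) ∧
      rhoF ι (p ^ n) σ (mkX x) = mkX x' := by
    intro x
    by_cases hx : x = 0
    · subst hx
      refine ⟨0, fun _ => rfl, ?_⟩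
      rw [map_zero]
      have h1 := rhoF_add ι σ (0 : XL (GH N H) (p ^ n)) 0
      rw [add_zero] at h1
      exact (left_eq_add.1 h1)
    · obtain ⟨x', hx'⟩ := mkX_surjective (rhoF ι (p ^ n) σ (mkX x))
      exact ⟨x', fun h => absurd h hx, hx'.symm⟩
  choose g hg0 hg using hex
  obtain ⟨z, hz⟩ := apx_tc (b := b) (apx_rhoO ι hpO σ n) φ (φ.mapRange g (hg0 0 rfl)) (fun i => by
    rw [Finsupp.mapRange_apply]
    exact hg (φ i))
  have h1 : PB.tc b _ (φ.mapRange g (hg0 0 rfl) - φ) =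
      (p ^ n : O) • (y' + y₁ - z - rhoN hpO ι N H σ y₁) := by
    have h2 : rhoN hpO ι N H σ (PB.tc b _ φ) = PB.tc b _ (φ.mapRange g (hg0 0 rfl)) +
        ((p ^ n : ℕ) : O) • z := hz
    rw [map_add, map_smul, h2] at hy'
    rw [map_sub, smul_sub, smul_sub, smul_add, ← hy']
    push_cast
    abel
  obtain ⟨ψ, hψ⟩ := hb.dvd_of h1 i
  rw [Finsupp.sub_apply, Finsupp.mapRange_apply, sub_eq_iff_eq_add] at hψ
  rw [hg, hψ, map_add, map_nsmul, mkX_nsmul, zero_add]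

local notation "Q̄" => AlgebraicClosure ℚ

attribute [local instance] ThmC.algRK ThmC.isFractionRing_RK
attribute [local instance 10000] fastAlg

variable {A : ValuationSubring (AlgebraicClosure ℚ)} {q M : ℕ} [hq : Fact q.Prime] [NeZero M]
  {H : Subgroup (ZMod M)ˣ} [hH : Fact ((-1 : (ZMod M)ˣ) ∈ H)]

/-- **Frobenius on the vectors of the lattice which are inertia invariant modulo `p ^ n`.** -/
theorem main_XH (hreg : ∀ x : O, (p : O) * x = 0 → x = 0)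
    (hA : A.LiesOverPrime q) (hqM : ¬ q ∣ M) (hM3 : 3 ≤ M) (D : WData q M H)
    {r : ℕ} (hr : r.Prime) (hr12 : r % 12 = 11) (hrM : r ∣ M)
    {Φ : Q̄ ≃ₐ[ℚ] Q̄} (hΦ : A.IsFrobeniusAt Φ q) (hqp : q ≠ p) {n : ℕ}
    (hS : haveI : CharP (IsLocalRing.ResidueField A) q := RedMod.charP_residue hA
      SurjSpz (qset hA hqM hM3 D ι) (p ^ n))
    {P : Module.End ℤ (LZ (Gq q M H)) × Module.End ℤ (LZ (GH M H))} (hP : P ∈ heckeP q M H)
    (hP2 : ∀ ω : LZ (GH M H), ∃ ψ, P.2 ω = (p ^ n : ℕ) • ψ)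
    {l : ℕ} (hl : l.Prime) (hlN : ¬ l ∣ q * M)
    {d : (ZMod (q * M))ˣ} (hd : dd (q * M) (exists_γ0 D).choose⁻¹ = d)
    {y : XH O (q * M) (HM (dvd_mul_left M q) H)}
    (hy : ∀ σ ∈ A.inertiaSubgroupIn ℚ, ∃ y',
      rhoN hpO ι (q * M) (HM (dvd_mul_left M q) H) σ y - y = (p ^ n : O) • y')
    {θ : XH O (q * M) (HM (dvd_mul_left M q) H)}
    (hθ : θ = P.1.baseChange O ((TH (q * M) (HM (dvd_mul_left M q) H) hl hlN).baseChange O y -
      ((l + 1 : ℕ) : O) • y)) :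
    ∃ y', rhoN hpO ι (q * M) (HM (dvd_mul_left M q) H) Φ
      ((DH (q * M) (HM (dvd_mul_left M q) H) d).baseChange O ((WH D).baseChange O θ)) +
      (q : O) • θ = (p ^ n : O) • y' := by
  obtain ⟨κ, b, hb⟩ := exists_pb p hreg
  obtain ⟨φ, y₁, rfl⟩ := hb.expand n y
  have hfix : ∀ i, ∀ σ ∈ A.inertiaSubgroupIn ℚ,
      rhoF ι (p ^ n) σ (mkX (φ i) : XL (Gq q M H) (p ^ n)) = mkX (φ i) := fun i σ hσ =>
    fix_coef hpO ι hb (hy σ hσ) i
  have hqn : ¬ q ∣ p ^ n := fun h => hqp ((Nat.prime_dvd_prime_iff_eq hq.out hp.out).1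
    (hq.out.dvd_of_dvd_pow h))
  have hP2' : ∀ ω : XL (GH M H) (p ^ n), actE (GH M H) (p ^ n) P.2 ω = 0 := by
    intro ω
    obtain ⟨ω, rfl⟩ := mkX_surjective ω
    obtain ⟨ψ, hψ⟩ := hP2 ω
    rw [actE_mkX, hψ, map_nsmul, mkX_nsmul]
  set T : Module.End ℤ (LZ (Gq q M H)) := P.1 * (TH (q * M) (HM (dvd_mul_left M q) H) hl hlN -
    ((l + 1 : ℕ) : Module.End ℤ (LZ (Gq q M H)))) with hT
  have hTθ : ∀ y : XH O (q * M) (HM (dvd_mul_left M q) H),
      P.1.baseChange O ((TH (q * M) (HM (dvd_mul_left M q) H) hl hlN).baseChange O y -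
      ((l + 1 : ℕ) : O) • y) = T.baseChange O y := by
    intro y
    have h1 : T.baseChange O y = P.1.baseChange O ((TH (q * M) (HM (dvd_mul_left M q) H) hl hlN -
      ((l + 1 : ℕ) : Module.End ℤ (LZ (Gq q M H)))).baseChange O y) := by
      rw [hT]
      exact LinearMap.congr_fun (LinearMap.baseChange_comp _ _) y
    rw [h1, LinearMap.baseChange_sub, LinearMap.sub_apply]
    congr 2
    refine bc_ext O (f := ((l + 1 : ℕ) : O) • LinearMap.id) (g := LinearMap.baseChange O _)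
      (fun x => ?_) y
    rw [LinearMap.baseChange_tmul, Module.End.natCast_apply, TensorProduct.tmul_smul,
      LinearMap.smul_apply, LinearMap.id_apply, Nat.cast_smul_eq_nsmul]
  rw [hTθ] at hθ
  subst hθ
  set F : Module.End O (XH O (q * M) (HM (dvd_mul_left M q) H)) :=
    (rhoN hpO ι (q * M) (HM (dvd_mul_left M q) H) Φ ∘ₗ
      ((DH (q * M) (HM (dvd_mul_left M q) H) d).baseChange O ∘ₗ (WH D).baseChange O)) ∘ₗ
        T.baseChange O + (q : O) • T.baseChange O with hF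
  have hap : Apx (p ^ n) F _ := ((((apx_rhoO (Γ := Gq q M H) ι hpO Φ n).comp
    ((apx_gen (O := O) (DH (q * M) (HM (dvd_mul_left M q) H) d) (p ^ n)).comp
      (apx_gen (O := O) (N := q * M) (H := HM (dvd_mul_left M q) H) (WH D) (p ^ n)))).comp
        (apx_gen (O := O) T (p ^ n))).add ((apx_gen (O := O) T (p ^ n)).nsmul q))
  obtain ⟨z, hz⟩ := apx_tc (b := b) hap φ 0 (fun i => by
    have h1 := main_XL hA hqM hM3 D ι hr hr12 hrM hΦ hqn hS (hfix i) hP hP2' hl hlN hd rfl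
    have h2 : actE (Gq q M H) (p ^ n) P.1
      (actE (Gq q M H) (p ^ n) (TH (q * M) (HM (dvd_mul_left M q) H) hl hlN) (mkX (φ i)) -
        (l + 1) • mkX (φ i)) = actE (Gq q M H) (p ^ n) T (mkX (φ i)) := by
      rw [actE_mkX, actE_mkX, ← map_nsmul, ← map_sub, actE_mkX, hT]
      rfl
    rw [h2] at h1
    rw [Finsupp.zero_apply, map_zero]
    exact add_eq_zero_iff_eq_neg.2 h1)
  rw [map_zero, zero_add] at hz
  refine ⟨z + F y₁, ?_⟩
  have h3 : F (PB.tc b _ φ + (p ^ n : O) • y₁) = (p ^ n : O) • (z + F y₁) := by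
    rw [map_add, map_smul, hz, smul_add]
    push_cast
    rfl
  exact h3

end main

end

end Fermat.Agent.E2Y
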