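import Fermat.Agent.E2Y.XHform
import Fermat.Agent.TW.YH

/-!
# Frobenius on the inertia invariants modulo `p ^ n` of the localised lattice
-/

set_option autoImplicit false
set_option linter.unusedSectionVars false
set_option linter.style.haveILetI false

open Matrix.SpecialLinearGroup
open scoped MatrixGroups TensorProduct
open IsLocalRing
open Fermat.Agent.AL Fermat.Agent.ALCoh Fermat.Agent.KumG Fermat.Agent.GalRep
  Fermat.Agent.Places Fermat.Agent.Cheb Fermat.Agent.TW Fermat.Agent.SSH Fermat.Agent.E2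
  Fermat.Agent.E2K Fermat.Agent.Cov Fermat.Agent.Flat Fermat.Agent.RedMod

namespace Fermat.Agent.E2Y

noncomputable section

/-! ### Hecke polynomials -/

section hecke

theorem evC_mem_prod {I B C : Type} [Ring B] [Ring C] {f : I → B} {g : I → C}
    (hf : ∀ i j, Commute (f i) (f j)) (hg : ∀ i j, Commute (g i) (g j)) (R : Subring (B × C))
    (h : ∀ i, (f i, g i) ∈ R) (t : MvPolynomial I ℤ) :
    (evC (R := ℤ) f hf t, evC (R := ℤ) g hg t) ∈ R := by
  induction t using MvPolynomial.induction_on with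
  | C a =>
    rw [evC_C, evC_C]
    have h := intCast_mem R a
    have h1 : (a : B × C) = (algebraMap ℤ _ a, algebraMap ℤ _ a) := by
      rw [Prod.ext_iff, Prod.fst_intCast, Prod.snd_intCast, eq_intCast, eq_intCast]
      exact ⟨rfl, rfl⟩
    rw [h1] at h
    exact h
  | add x y hx hy =>
    rw [map_add, map_add]
    exact add_mem hx hy
  | mul_X x i hx =>
    rw [map_mul, map_mul, evC_X, evC_X]
    exact mul_mem hx (h i)

/-- the integral Hecke operators -/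
def fT (N : ℕ) [NeZero N] (H : Subgroup (ZMod N)ˣ) [hH : Fact ((-1 : (ZMod N)ˣ) ∈ H)] {S : Set ℕ}
    (hNS : ∀ l, l.Prime → l ∣ N → l ∈ S) (i : IS S) : Module.End ℤ (LZ (GH N H)) :=
  TH N H i.2.1 (i.not_dvd hNS)

theorem fT_comm {N : ℕ} [NeZero N] (H : Subgroup (ZMod N)ˣ) [hH : Fact ((-1 : (ZMod N)ˣ) ∈ H)]
    {S : Set ℕ} (hNS : ∀ l, l.Prime → l ∣ N → l ∈ S) (i j : IS S) :
    Commute (fT N H hNS i) (fT N H hNS j) :=
  TH_TH_comm (H := H) i.2.1 (i.not_dvd hNS) j.2.1 (j.not_dvd hNS)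

theorem phiH_map {O : Type} [CommRing O] {N : ℕ} [NeZero N] (H : Subgroup (ZMod N)ˣ)
    [hH : Fact ((-1 : (ZMod N)ˣ) ∈ H)]
    {S : Set ℕ} (hNS : ∀ l, l.Prime → l ∣ N → l ∈ S) (t : MvPolynomial (IS S) ℤ) :
    phiH O H hNS (MvPolynomial.map (Int.castRingHom O) t) =
      (evC (R := ℤ) (fT N H hNS) (fT_comm H hNS) t).baseChange O :=
  PB.evC_map (fT N H hNS) (fT_comm H hNS) (commH O H hNS) (fun _ => rfl) t

theorem phiH_aux {O : Type} [CommRing O] {N : ℕ} [NeZero N] (H : Subgroup (ZMod N)ˣ)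
    [hH : Fact ((-1 : (ZMod N)ˣ) ∈ H)]
    {S : Set ℕ} (hNS : ∀ l, l.Prime → l ∣ N → l ∈ S) (t : MvPolynomial (IS S) ℤ) (i : IS S)
    (y : XH O N H) :
    phiH O H hNS (MvPolynomial.map (Int.castRingHom O) t *
      (MvPolynomial.X i - MvPolynomial.C ((i.1 + 1 : ℕ) : O))) y =
      (evC (R := ℤ) (fT N H hNS) (fT_comm H hNS) t).baseChange O
        ((TH N H i.2.1 (i.not_dvd hNS)).baseChange O y - ((i.1 + 1 : ℕ) : O) • y) := by
  rw [map_mul, phiH_map, Module.End.mul_apply, map_sub, phiH_X, LinearMap.sub_apply,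
    ← MvPolynomial.algebraMap_eq, AlgHom.commutes, Module.algebraMap_end_apply]

theorem exists_unit_part {O T X k : Type} [CommRing O] [IsLocalRing O] [IsNoetherianRing O]
    [IsAdicComplete (maximalIdeal O) O]
    [CommRing T] [Algebra O T] [AddCommGroup X] [Module O X]
    [CommRing k] [Algebra O k] {φ : T →ₐ[O] Module.End O X} {θ : T →ₐ[O] k} {e : T}
    (he : IsLoc φ θ e) {u : T} (hu : θ u ≠ 0) : ∃ s' : T, ∀ y : X, φ e y = y → φ u (φ s' y) = y := by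
  obtain ⟨s', hs'⟩ := he.unit u hu
  refine ⟨s', fun y hy => ?_⟩
  have h3 := LinearMap.congr_fun hs' y
  rw [Module.End.mul_apply, hy, ← map_mul, mul_comm, map_mul] at h3
  exact h3

theorem exists_smul_part {O T X : Type} [CommRing O] [IsLocalRing O] [CommRing T] [Algebra O T] [AddCommGroup X]
    [Module O X] {φ : T →ₐ[O] Module.End O X} {e : T} (he : φ e * φ e = φ e) (y : part φ e)
    (c : O) (h : ∃ x : X, (y : X) = c • x) : ∃ y' : part φ e, y = c • y' := by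
  obtain ⟨x, hx⟩ := h
  refine ⟨toPart φ e x, Subtype.ext ?_⟩
  have h1 : φ e (y : X) = y := (mem_part he).1 y.2
  rw [hx, map_smul, ← hx] at h1
  exact h1.symm

variable {q M : ℕ} [hq : Fact q.Prime] [NeZero M]
  {H : Subgroup (ZMod M)ˣ} [hH : Fact ((-1 : (ZMod M)ˣ) ∈ H)] {S : Set ℕ}
  (hNS : ∀ l, l.Prime → l ∣ q * M → l ∈ S) (hMS : ∀ l, l.Prime → l ∣ M → l ∈ S)

theorem mem_heckeP (t : MvPolynomial (IS S) ℤ) :
    ((evC (R := ℤ) (fT (q * M) (HM (dvd_mul_left M q) H) hNS) (fT_comm _ hNS) t,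
      evC (R := ℤ) (fT M H hMS) (fT_comm _ hMS) t) :
      Module.End ℤ (LZ (Gq q M H)) × Module.End ℤ (LZ (GH M H))) ∈ heckeP q M H :=
  evC_mem_prod (fT_comm _ hNS) (fT_comm _ hMS) (heckeP q M H) (fun i =>
    Subring.subset_closure (Or.inl ⟨i.1, i.2.1, i.not_dvd hNS, i.not_dvd hMS, rfl⟩)) t

end hecke

/-! ### the involution -/

section W

variable {O : Type} [CommRing O] {p : ℕ} [hp : Fact p.Prime]
  {q M : ℕ} [hq : Fact q.Prime] [NeZero M]
  {H : Subgroup (ZMod M)ˣ} [hH : Fact ((-1 : (ZMod M)ˣ) ∈ H)] {S : Set ℕ}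
  {hNS : ∀ l, l.Prime → l ∣ q * M → l ∈ S} (D : WData q M H)

variable (O) in
/-- the involution -/
def WO : Module.End O (XH O (q * M) (HM (dvd_mul_left M q) H)) := (WH D).baseChange O

theorem WO_WO (x : XH O (q * M) (HM (dvd_mul_left M q) H)) : WO O D (WO O D x) = x := by
  refine bc_ext O (f := WO O D ∘ₗ WO O D) (g := LinearMap.id) (fun x => ?_) x
  change (1 : O) ⊗ₜ[ℤ] (WH D (WH D x)) = (1 : O) ⊗ₜ[ℤ] x
  rw [WH_WH]

theorem WO_phiD (s : TD O S (q * M)) (x : XH O (q * M) (HM (dvd_mul_left M q) H)) :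
    WO O D (phiD O (HM (dvd_mul_left M q) H) hNS s x) =
      phiD O (HM (dvd_mul_left M q) H) hNS s (WO O D x) := by
  refine evC_comp (WO O D) (fun i x => ?_) s x
  rcases i with i | d
  · refine bc_ext O (f := WO O D ∘ₗ LinearMap.baseChange O _)
      (g := LinearMap.baseChange O _ ∘ₗ WO O D) (fun x => ?_) x
    change (1 : O) ⊗ₜ[ℤ] (WH D (TH _ _ i.2.1 (i.not_dvd hNS) x)) =
      (1 : O) ⊗ₜ[ℤ] (TH _ _ i.2.1 (i.not_dvd hNS) (WH D x))
    rw [WH_TH]
  · refine bc_ext O (f := WO O D ∘ₗ LinearMap.baseChange O _)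
      (g := LinearMap.baseChange O _ ∘ₗ WO O D) (fun x => ?_) x
    change (1 : O) ⊗ₜ[ℤ] (WH D (DH _ _ _ x)) = (1 : O) ⊗ₜ[ℤ] (DH _ _ _ (WH D x))
    rw [WH_DH]

variable [IsLocalRing O] [IsNoetherianRing O]
  [IsAdicComplete (maximalIdeal O) O] (hpO : (p : O) ∈ maximalIdeal O)
  (ι : AlgebraicClosure ℚ →+* ℂ)

theorem rhoN_WO (hM3 : 3 ≤ M) (σ : GQ) (x : XH O (q * M) (HM (dvd_mul_left M q) H)) :
    rhoN hpO ι (q * M) (HM (dvd_mul_left M q) H) σ (WO O D x) =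
      WO O D (rhoN hpO ι (q * M) (HM (dvd_mul_left M q) H) σ x) := by
  have h : rhoN hpO ι (q * M) (HM (dvd_mul_left M q) H) σ ∘ₗ WO O D =
      WO O D ∘ₗ rhoN hpO ι (q * M) (HM (dvd_mul_left M q) H) σ :=
    Apx.ext' hpO (fun n => (apx_rhoO ι hpO σ n).comp
        (apx_gen (N := q * M) (H := HM (dvd_mul_left M q) H) (WH D) _))
      (fun n => (apx_gen (N := q * M) (H := HM (dvd_mul_left M q) H) (WH D) _).comp
        (apx_rhoO ι hpO σ n)) fun n ξ => rhoF_WH ι D hM3 σ ξ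
  exact LinearMap.congr_fun h x

theorem rhoT_WO (hM3 : 3 ≤ M) (σ : GQ) (x : XH O (q * M) (HM (dvd_mul_left M q) H)) :
    rhoT hpO ι (q * M) (HM (dvd_mul_left M q) H) σ (WO O D x) =
      WO O D (rhoT hpO ι (q * M) (HM (dvd_mul_left M q) H) σ x) := by
  have hu : ∀ l, l.Prime → l ∣ q * M → l ∈ (Set.univ : Set ℕ) := fun _ _ _ => Set.mem_univ _
  obtain ⟨r, hr⟩ := exists_phiD_DO (O := O) (H := HM (dvd_mul_left M q) H) hu
    (twd (q * M) (HM (dvd_mul_left M q) H) σ)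
  rw [rhoT_apply, ← hr, Module.End.mul_apply, Module.End.mul_apply, rhoN_WO D hpO ι hM3, WO_phiD]

end W

/-! ### the localised lattice -/

section Y

variable {O : Type} [CommRing O] [IsLocalRing O] [IsNoetherianRing O]
  [IsAdicComplete (maximalIdeal O) O] {p : ℕ} [hp : Fact p.Prime]
  (hpO : (p : O) ∈ maximalIdeal O) (ι : AlgebraicClosure ℚ →+* ℂ)
  {q M : ℕ} [hq : Fact q.Prime] [NeZero M]
  {H : Subgroup (ZMod M)ˣ} [hH : Fact ((-1 : (ZMod M)ˣ) ∈ H)] {S : Set ℕ}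
  (hNS : ∀ l, l.Prime → l ∣ q * M → l ∈ S) (e : TS O S) (D : WData q M H)

/-- the involution of the localised lattice -/
def WY : Module.End O (YH (HM (dvd_mul_left M q) H) hNS e) :=
  mapPart (WO O D) (WO_phiD D)

theorem WY_coe (y : YH (HM (dvd_mul_left M q) H) hNS e) :
    (WY hNS e D y : XH O (q * M) (HM (dvd_mul_left M q) H)) = WO O D y := rfl

theorem WY_WY : WY hNS e D * WY hNS e D = 1 :=
  LinearMap.ext fun y => Subtype.ext (WO_WO D _)

theorem WY_psiY (s : TD O S (q * M)) (y : YH (HM (dvd_mul_left M q) H) hNS e) :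
    WY hNS e D (psiY (HM (dvd_mul_left M q) H) hNS e s y) =
      psiY (HM (dvd_mul_left M q) H) hNS e s (WY hNS e D y) :=
  Subtype.ext (WO_phiD D s _)

theorem rhoY_WY (hM3 : 3 ≤ M) (σ : GQ) (y : YH (HM (dvd_mul_left M q) H) hNS e) :
    rhoY hpO ι (HM (dvd_mul_left M q) H) hNS e σ (WY hNS e D y) =
      WY hNS e D (rhoY hpO ι (HM (dvd_mul_left M q) H) hNS e σ y) :=
  Subtype.ext (rhoT_WO D hpO ι hM3 σ _)

local notation "Q̄" => AlgebraicClosure ℚ

attribute [local instance] ThmC.algRK ThmC.isFractionRing_RK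
attribute [local instance 10000] fastAlg

variable {A : ValuationSubring (AlgebraicClosure ℚ)}

theorem fix_phi {σ : GQ} (hσ : twd (q * M) (HM (dvd_mul_left M q) H) σ = 1) (s : TS O S) {c : O}
    {y y' : YH (HM (dvd_mul_left M q) H) hNS e}
    (h : rhoY hpO ι (HM (dvd_mul_left M q) H) hNS e σ y - y = c • y') :
    ∃ z, rhoN hpO ι (q * M) (HM (dvd_mul_left M q) H) σ
        (phiH O (HM (dvd_mul_left M q) H) hNS s y) -
          phiH O (HM (dvd_mul_left M q) H) hNS s y = c • z := by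
  have h1 : rhoT hpO ι (q * M) (HM (dvd_mul_left M q) H) σ (y : XH O (q * M) _) -
      (y : XH O (q * M) _) = c • (y' : XH O (q * M) _) := congrArg Subtype.val h
  rw [rhoT_apply, hσ, map_one, one_mul] at h1
  refine ⟨phiH O (HM (dvd_mul_left M q) H) hNS s y', ?_⟩
  rw [← phiD_incD, rhoN_phiD, ← map_sub, h1, map_smul]

theorem rhoT_WO_eq {Φ : GQ} {d : (ZMod (q * M))ˣ}
    (htw : twd (q * M) (HM (dvd_mul_left M q) H) Φ = QuotientGroup.mk d)
    (y : XH O (q * M) (HM (dvd_mul_left M q) H)) :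
    rhoT hpO ι (q * M) (HM (dvd_mul_left M q) H) Φ (WO O D y) =
      rhoN hpO ι (q * M) (HM (dvd_mul_left M q) H) Φ
      ((DH (q * M) (HM (dvd_mul_left M q) H) d).baseChange O ((WH D).baseChange O y)) := by
  rw [rhoT_apply, htw, DO_mk, rhoN_DH]
  rfl

variable {hNS e}

/-- **Frobenius on the inertia invariants modulo `p ^ n` of the localised lattice.** -/
theorem main_YH (hreg : ∀ x : O, (p : O) * x = 0 → x = 0)
    (hA : A.LiesOverPrime q) (hqM : ¬ q ∣ M) (hM3 : 3 ≤ M)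
    {r : ℕ} (hr : r.Prime) (hr12 : r % 12 = 11) (hrM : r ∣ M)
    {Φ : Q̄ ≃ₐ[ℚ] Q̄} (hΦ : A.IsFrobeniusAt Φ q) (hqp : q ≠ p) {n : ℕ}
    (hS : haveI : CharP (IsLocalRing.ResidueField A) q := RedMod.charP_residue hA
      SurjSpz (qset hA hqM hM3 D ι) (p ^ n))
    {d : (ZMod (q * M))ˣ} (hd : dd (q * M) (exists_γ0 D).choose⁻¹ = d)
    (htw : twd (q * M) (HM (dvd_mul_left M q) H) Φ = QuotientGroup.mk d)
    (htw1 : ∀ σ ∈ A.inertiaSubgroupIn ℚ, twd (q * M) (HM (dvd_mul_left M q) H) σ = 1)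
    (hMS : ∀ l, l.Prime → l ∣ M → l ∈ S)
    {k : Type} [Field k] [Algebra O k] {θ : TS O S →ₐ[O] k}
    (hpk : algebraMap O k (p : O) = 0)
    (heH : IsLoc (phiH O (HM (dvd_mul_left M q) H) hNS) θ e)
    (hno : ∃ s : TS O S, phiH O H hMS s = 0 ∧ θ s ≠ 0)
    {l : ℕ} (hl : l.Prime) (hlS : l ∉ S)
    (hθl : θ (MvPolynomial.X ⟨l, hl, hlS⟩) ≠ (l : k) + 1)
    {y : YH (HM (dvd_mul_left M q) H) hNS e}
    (hy : ∀ σ ∈ A.inertiaSubgroupIn ℚ, ∃ y',
      rhoY hpO ι (HM (dvd_mul_left M q) H) hNS e σ y - y = (p ^ n : O) • y') :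
    ∃ y', rhoY hpO ι (HM (dvd_mul_left M q) H) hNS e Φ (WY hNS e D y) + (q : O) • y =
      (p ^ n : O) • y' := by
  haveI : (GH (q * M) (HM (dvd_mul_left M q) H)).FiniteIndex := inferInstance
  haveI : (GH M H).FiniteIndex := inferInstance
  obtain ⟨κ, b, hb⟩ := exists_pb p hreg
  obtain ⟨s, hs, hθs⟩ := hno
  obtain ⟨t, ht, ht2⟩ := hb.exists_int (fT M H hMS) (fT_comm _ hMS) (commH O H hMS)
    (fun i => rfl) θ hpk hs hθs n
  set u : TS O S := MvPolynomial.map (Int.castRingHom O) t *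
    (MvPolynomial.X ⟨l, hl, hlS⟩ - MvPolynomial.C ((l + 1 : ℕ) : O)) with hu
  have hθu : θ u ≠ 0 := by
    rw [hu, map_mul, map_sub, ← MvPolynomial.algebraMap_eq, AlgHom.commutes, map_natCast]
    refine mul_ne_zero ht (sub_ne_zero.2 ?_)
    push_cast
    exact hθl
  have hidem : phiD O (HM (dvd_mul_left M q) H) hNS (incD O S (q * M) e) *
      phiD O (HM (dvd_mul_left M q) H) hNS (incD O S (q * M) e) =
      phiD O (HM (dvd_mul_left M q) H) hNS (incD O S (q * M) e) := by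
    rw [phiD_incD]
    exact heH.idem
  obtain ⟨s', hs'⟩ := exists_unit_part heH hθu
  have hyu := hs' y (by
    rw [← phiD_incD]
    exact (mem_part hidem).1 y.2)
  rw [hu, phiH_aux (HM (dvd_mul_left M q) H) hNS t ⟨l, hl, hlS⟩] at hyu
  have hfix : ∀ σ ∈ A.inertiaSubgroupIn ℚ, ∃ y',
      rhoN hpO ι (q * M) (HM (dvd_mul_left M q) H) σ
        (phiH O (HM (dvd_mul_left M q) H) hNS s' y) -
          phiH O (HM (dvd_mul_left M q) H) hNS s' y = (p ^ n : O) • y' := by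
    intro σ hσ
    obtain ⟨y', hy'⟩ := hy σ hσ
    exact fix_phi hpO ι hNS e (htw1 σ hσ) s' hy'
  obtain ⟨y', hy'⟩ := main_XH hpO ι hreg hA hqM hM3 D hr hr12 hrM hΦ hqp hS
    (mem_heckeP hNS hMS t) ht2 hl (IS.not_dvd hNS ⟨l, hl, hlS⟩) hd hfix hyu.symm
  refine exists_smul_part hidem _ _ ⟨y', ?_⟩
  rw [← hy']
  exact congrArg (· + (q : O) • (y : XH O (q * M) (HM (dvd_mul_left M q) H)))
    (rhoT_WO_eq hpO ι D htw _)

end Y

end

end Fermat.Agent.E2Y
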